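import Fermat.Agent.HopfPair.Stab
import Fermat.Agent.S15.EisInp
import Fermat.Agent.Mazur.Descent
import Fermat.Agent.S17

/-!
# (E2): a Hecke operator outside of the Eisenstein ideal kills the rational points up to torsion
-/

set_option autoImplicit false
set_option linter.style.haveILetI false

open ModularCurve AlgebraicCurve Fermat.Agent.Mazur Fermat.Agent.MazurEisJ

namespace Fermat.Agent.HopfPair

/-- **(E2)** -/
theorem exists_killing (p : ℕ) [hp : Fact p.Prime] (q : ℕ) (hq : q.Prime) (hqp : q ≠ p) :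
    letI := modS p
    ∃ s ∉ PE p q, ∀ x : JZero p, (∀ σ : AlgebraicClosure ℚ ≃ₐ[ℚ] AlgebraicClosure ℚ, σ • x = x) →
      ∃ n : ℕ, n ≠ 0 ∧ n • s • x = 0 := by
  letI := modS p
  haveI := commClass p
  haveI : Fact q.Prime := ⟨hq⟩
  have hqn : ¬ q ∣ p := fun h => hqp ((Nat.prime_dvd_prime_iff_eq hq hp.out).mp h)
  obtain ⟨A, hA⟩ := Frob.exists_liesOverPrime q hq
  have h : EisInput hq p (PE p q) (TS p) (JZero p) :=
    S15x.eisInput_of_model p hp.out hq hqp ⟨A, hA, modelRed p hq hA hqn⟩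
  obtain ⟨s, hs, hk⟩ := EisInput.descent (q := q) h
    (FixedPoints.addSubgroup (AlgebraicClosure ℚ ≃ₐ[ℚ] AlgebraicClosure ℚ) (JZero p))
    (fun x => Iff.rfl) (S17.fg_invariants p)
  exact ⟨s, hs, fun x hx => hk x hx⟩

end Fermat.Agent.HopfPair
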