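import Fermat.Agent.LatticeFlat.Alg
import Fermat.Agent.Mazur.Mult

/-!
# Translation stable lattices give finite flat models, with residual information

Variant of `LatticeFlat/Global.lean` which keeps the model and shows that the translations which
are trivial modulo the maximal ideal reduce to zero in the model.
-/

set_option autoImplicit false

namespace Fermat.Agent.HopfPair

open Fermat.Agent.FlatGS Fermat.Agent.LatticeFlat

variable {p : ℕ} {M : Type} [AddCommGroup M] {act : GQ → M → M}

section

variable (Λ : Submodule (Rp p) (M → Om))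

/-- **Lemma G**, with a set `M₀` of translations acting trivially modulo the maximal ideal. -/
theorem exists_model_of_lattice (hp : p.Prime) [Finite M]
    (hadd : ∀ σ x y, act σ (x + y) = act σ x + act σ y)
    (hfg : Λ.FG) (heq : ∀ c ∈ Λ, Equivariant act c)
    (hsep : ∀ x y, (∀ c ∈ Λ, c x = c y) → x = y)
    {A : ValuationSubring Om} (hA : A.LiesOverPrime p)
    (htr : ∀ y, ∀ c ∈ Λ, (fun x => c (x + y)) ∈ Submodule.span A (Λ : Set (M → Om)))
    (M₀ : Set M) (hM₀ : ∀ y ∈ M₀, ∀ c ∈ Λ, (fun x => c (x + y) - c x) ∈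
      IsLocalRing.maximalIdeal A • Submodule.span A (Λ : Set (M → Om))) :
    ∃ B : Subalgebra (Rp p) (M → Om), IsModel p act B ∧ ∀ y ∈ M₀, MazurMult.Rel B A y 0 := by
  classical
  have hact : ∀ σ, Function.Surjective (act σ) := fun σ =>
    Finite.surjective_of_injective (act_injective_of_sep Λ heq hsep σ)
  have hfin : Module.Finite (Rp p) Λ := Module.Finite.iff_fg.mpr hfg
  let b := Module.Free.chooseBasis (Rp p) Λ
  let ι := Module.Free.ChooseBasisIndex (Rp p) Λ
  let e : ι → M → Om := fun i => (b i : M → Om)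
  have heE : ∀ i, Equivariant act (e i) := fun i => heq _ (b i).2
  have hli : LinearIndependent Om e :=
    linearIndependent_of_equivariant_Rp (p := p) act hact e heE
      (b.linearIndependent.map' Λ.subtype (LinearMap.ker_eq_bot.mpr Subtype.val_injective))
  -- elements of `Λ` are combinations of the `e i`
  have hΛ : ∀ (c : M → Om) (hc : c ∈ Λ), c = ∑ i, b.repr ⟨c, hc⟩ i • e i := by
    intro c hc
    have := b.sum_repr ⟨c, hc⟩
    have h2 : ((∑ i, b.repr ⟨c, hc⟩ i • b i : Λ) : M → Om) = c := congrArg Subtype.val this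
    refine h2.symm.trans ?_
    rw [AddSubmonoidClass.coe_finsetSum]
    rfl
  have hspan : ∀ c ∈ Submodule.span A (Λ : Set (M → Om)), ∃ a : ι → Om, (∀ i, a i ∈ A) ∧
      c = ∑ i, a i • e i := by
    intro c hc
    induction hc using Submodule.span_induction with
    | mem c hc =>
      refine ⟨fun i => algebraMap ℚ Om (b.repr ⟨c, hc⟩ i : ℚ), fun i => ?_, ?_⟩
      · exact algebraMap_mem_of_mem_Rp hA (b.repr ⟨c, hc⟩ i).2
      · conv_lhs => rw [hΛ c hc]
        refine Finset.sum_congr rfl fun i _ => ?_
        funext x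
        exact (Algebra.smul_def _ _ : (b.repr ⟨c, hc⟩ i) • (e i x) = _)
    | zero => exact ⟨0, fun i => A.zero_mem, by simp⟩
    | add c d _ _ hc hd =>
      obtain ⟨u, hu, rfl⟩ := hc
      obtain ⟨v, hv, rfl⟩ := hd
      refine ⟨u + v, fun i => A.add_mem _ _ (hu i) (hv i), ?_⟩
      simp [add_smul, Finset.sum_add_distrib]
    | smul a c _ hc =>
      obtain ⟨u, hu, rfl⟩ := hc
      refine ⟨fun i => (a : Om) * u i, fun i => A.mul_mem _ _ a.2 (hu i), ?_⟩
      rw [Finset.smul_sum]
      refine Finset.sum_congr rfl fun i _ => ?_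
      rw [mul_smul]
      rfl
  have huniq : ∀ a a' : ι → Om, ∑ i, a i • e i = ∑ i, a' i • e i → a = a' := by
    intro a a' h
    have h1 : ∑ i, (a i - a' i) • e i = 0 := by
      simp only [sub_smul, Finset.sum_sub_distrib, h, sub_self]
    funext i
    exact sub_eq_zero.mp (Fintype.linearIndependent_iff.mp hli _ h1 i)
  choose h hmemA hh using fun (i : ι) (y : M) => hspan _ (htr y (e i) (b i).2)
  -- `h i y j`
  have hh' : ∀ i y x, e i (x + y) = ∑ j, h i y j * e j x := by
    intro i y x
    have := congrFun (hh i y) x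
    simpa using this
  let t : ι × ι → M → Om := fun ij y => h ij.1 y ij.2
  have htE : ∀ ij, Equivariant act (t ij) := by
    rintro ⟨i, j⟩ σ y
    have h1 : ∑ j, h i (act σ y) j • e j = ∑ j, σ (h i y j) • e j := by
      funext x
      obtain ⟨x', rfl⟩ := hact σ x
      have h2 : e i (act σ x' + act σ y) = σ (e i (x' + y)) := by
        rw [← hadd, heE]
      rw [hh', hh', map_sum] at h2
      simp only [Finset.sum_apply, Pi.smul_apply, smul_eq_mul]
      rw [h2]
      refine Finset.sum_congr rfl fun j _ => ?_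
      rw [map_mul, heE]
    exact congrFun (huniq _ _ h1) j
  have htA : ∀ ij y, t ij y ∈ A := fun ij y => hmemA _ _ _
  have htI : ∀ ij, IsIntegral (Rp p) (t ij) := by
    intro ij
    apply isIntegral_fun
    intro m
    apply isIntegral_of_forall_mem hp hA
    intro σ
    rw [← htE]
    exact htA _ _
  -- the model
  let B : Subalgebra (Rp p) (M → Om) := Algebra.adjoin (Rp p) (Set.range t)
  have htB : ∀ ij, t ij ∈ B := fun ij => Algebra.subset_adjoin ⟨ij, rfl⟩
  have hB : IsModel p act B := by
    refine ⟨?_, ?_, ?_, ?_⟩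
    · exact Algebra.finite_adjoin_of_finite_of_isIntegral (Set.finite_range t) (by
        rintro _ ⟨ij, rfl⟩; exact htI ij)
    · intro c hc
      induction hc using Algebra.adjoin_induction with
      | mem c hc => obtain ⟨ij, rfl⟩ := hc; exact htE ij
      | algebraMap r =>
        intro σ x
        change algebraMap (Rp p) Om r = σ (algebraMap (Rp p) Om r)
        rw [Rp_algebraMap_Om]
        exact (σ.commutes _).symm
      | add c d _ _ hc hd =>
        intro σ x
        rw [Pi.add_apply, Pi.add_apply, hc, hd, map_add]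
      | mul c d _ _ hc hd =>
        intro σ x
        rw [Pi.mul_apply, Pi.mul_apply, hc, hd, map_mul]
    · intro m m' hmm
      apply hsep
      have h1 : ∀ i, e i m = e i m' := by
        intro i
        have h2 := hh' i m 0
        have h3 := hh' i m' 0
        rw [zero_add] at h2 h3
        rw [h2, h3]
        refine Finset.sum_congr rfl fun j _ => ?_
        rw [show h i m j = h i m' j from hmm _ (htB (i, j))]
      intro c hc
      rw [hΛ c hc]
      simp only [Finset.sum_apply, Pi.smul_apply]
      exact Finset.sum_congr rfl fun i _ => by rw [h1]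
    · rw [AlgHom.map_adjoin, Algebra.adjoin_le_iff]
      rintro _ ⟨_, ⟨⟨i, j⟩, rfl⟩, rfl⟩
      have key : pull p (fun x : M × M => x.1 + x.2) (t (i, j)) =
          ∑ k, pull p (Prod.snd : M × M → M) (t (i, k)) *
            pull p (Prod.fst : M × M → M) (t (k, j)) := by
        funext ⟨a, c⟩
        simp only [pull_apply, Finset.sum_apply, Pi.mul_apply, t]
        have h1 : ∑ j, h i (a + c) j • e j = ∑ j, (∑ k, h i c k * h k a j) • e j := by
          funext x
          have h2 : e i (x + (a + c)) = ∑ k, h i c k * e k (x + a) := by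
            rw [← add_assoc, hh']
          rw [hh'] at h2
          simp only [Finset.sum_apply, Pi.smul_apply, smul_eq_mul]
          rw [h2]
          simp only [hh', Finset.mul_sum, Finset.sum_mul]
          rw [Finset.sum_comm]
          refine Finset.sum_congr rfl fun j _ => Finset.sum_congr rfl fun k _ => by ring
        exact congrFun (huniq _ _ h1) j
      rw [SetLike.mem_coe, key]
      refine Subalgebra.sum_mem _ fun k _ => Subalgebra.mul_mem _ ?_ ?_
      · exact (le_sup_right : _ ≤ B.map (pull p (Prod.fst : M × M → M)) ⊔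
          B.map (pull p (Prod.snd : M × M → M))) ⟨_, htB _, rfl⟩
      · exact (le_sup_left : _ ≤ B.map (pull p (Prod.fst : M × M → M)) ⊔
          B.map (pull p (Prod.snd : M × M → M))) ⟨_, htB _, rfl⟩
  -- the residual statement
  have hspan' : ∀ c ∈ IsLocalRing.maximalIdeal A • Submodule.span A (Λ : Set (M → Om)),
      ∃ a : ι → Om, (∀ i, a i ∈ A.nonunits) ∧ c = ∑ i, a i • e i := by
    intro c hc
    refine Submodule.smul_induction_on hc ?_ ?_
    · intro r hr d hd
      obtain ⟨u, hu, rfl⟩ := hspan d hd
      refine ⟨fun i => (r : Om) * u i, fun i => ?_, ?_⟩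
      · exact nonunits_mul_mem
          (ValuationSubring.mem_nonunits_iff_exists_mem_maximalIdeal.mpr ⟨r.2, hr⟩) (hu i)
      · rw [Finset.smul_sum]
        refine Finset.sum_congr rfl fun i _ => ?_
        rw [mul_smul]
        rfl
    · rintro _ _ ⟨u, hu, rfl⟩ ⟨v, hv, rfl⟩
      refine ⟨u + v, fun i => nonunits_add_mem (hu i) (hv i), ?_⟩
      simp [add_smul, Finset.sum_add_distrib]
  refine ⟨B, hB, fun y hy => ?_⟩
  have ht0 : ∀ i j, h i 0 j = (Pi.single i (1 : Om) : ι → Om) j := by
    intro i j
    refine congrFun (huniq (h i 0) (Pi.single i 1) ?_) j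
    funext x
    have h1 := hh' i 0 x
    rw [add_zero] at h1
    simp only [Finset.sum_apply, Pi.smul_apply, smul_eq_mul]
    rw [← h1, Finset.sum_eq_single i]
    · rw [Pi.single_eq_same, one_mul]
    · intro j _ hj
      rw [Pi.single_eq_of_ne hj, zero_mul]
    · intro h; exact absurd (Finset.mem_univ i) h
  have hty : ∀ ij, t ij y - t ij 0 ∈ A.nonunits := by
    rintro ⟨i, j⟩
    obtain ⟨a, ha, ha'⟩ := hspan' _ (hM₀ y hy (e i) (b i).2)
    have h1 : a = fun j => h i y j - h i 0 j := by
      apply huniq
      rw [← ha']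
      funext x
      simp only [Finset.sum_apply, Pi.smul_apply, smul_eq_mul, sub_mul, Finset.sum_sub_distrib]
      have h2 := hh' i 0 x
      rw [add_zero] at h2
      rw [← hh' i y x, ← h2]
    have h2 := ha j
    rw [h1] at h2
    exact h2
  have key : ∀ c ∈ B, c y ∈ A ∧ c 0 ∈ A ∧ c y - c 0 ∈ A.nonunits := by
    intro c hc
    induction hc using Algebra.adjoin_induction with
    | mem c hc =>
      obtain ⟨ij, rfl⟩ := hc
      exact ⟨htA ij y, htA ij 0, hty ij⟩
    | algebraMap r =>
      have h1 : algebraMap ℚ Om (r : ℚ) ∈ A := algebraMap_mem_of_mem_Rp hA r.2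
      have h2 : ∀ z : M, algebraMap (Rp p) (M → Om) r z = algebraMap ℚ Om (r : ℚ) := fun z => by
        change algebraMap (Rp p) Om r = _
        rw [Rp_algebraMap_Om]
      rw [h2, h2, sub_self]
      exact ⟨h1, h1, MazurMult.nonunits_zero⟩
    | add c d _ _ hc hd =>
      obtain ⟨h1, h2, h3⟩ := hc
      obtain ⟨h1', h2', h3'⟩ := hd
      refine ⟨A.add_mem _ _ h1 h1', A.add_mem _ _ h2 h2', ?_⟩
      rw [Pi.add_apply, Pi.add_apply, add_sub_add_comm]
      exact nonunits_add_mem h3 h3'
    | mul c d _ _ hc hd =>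
      obtain ⟨h1, h2, h3⟩ := hc
      obtain ⟨h1', h2', h3'⟩ := hd
      refine ⟨A.mul_mem _ _ h1 h1', A.mul_mem _ _ h2 h2', ?_⟩
      have h4 : (c * d) y - (c * d) 0 = (c y - c 0) * d y + (d y - d 0) * c 0 := by
        rw [Pi.mul_apply, Pi.mul_apply]; ring
      rw [h4]
      exact nonunits_add_mem (nonunits_mul_mem h3 h1') (nonunits_mul_mem h3' h2)
  exact fun c hc => (key c hc).2.2

end

end Fermat.Agent.HopfPair
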