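import Fermat.Agent.HopfPair.Global

/-!
# Local-to-global, with residual information

Variant of `LatticeFlat/Local.lean` and `LatticeFlat/Alg.lean`.
-/

set_option autoImplicit false

open scoped Pointwise

namespace Fermat.Agent.HopfPair

open Fermat.Agent.FlatGS Fermat.Agent.LatticeFlat

variable {p : ℕ} {A : ValuationSubring Om} {M : Type} {act : GQ → M → M}

/-- `star` maps `m • span F` to `m • span F'`. -/
lemma star_mem_smul_span {σ : GQ} (hσ : σ ∈ A.decompositionSubgroup ℚ) {F F' : Set (M → Om)}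
    (hF : ∀ c ∈ F, star act σ c ∈ Submodule.span A F') {c : M → Om}
    (hc : c ∈ IsLocalRing.maximalIdeal A • Submodule.span A F) :
    star act σ c ∈ IsLocalRing.maximalIdeal A • Submodule.span A F' := by
  refine Submodule.smul_induction_on hc ?_ ?_
  · intro a ha d hd
    have h1 : star act σ (a • d) = σ (a : Om) • star act σ d := star_smul σ (a : Om) d
    rw [h1]
    have h2 : σ (a : Om) ∈ A := mem_of_mem_decomposition hσ a.2
    have h3 : (⟨σ (a : Om), h2⟩ : A) ∈ IsLocalRing.maximalIdeal A := by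
      intro hu
      apply ha
      have hu1 : IsUnit (⟨σ (a : Om), h2⟩ : A) := hu
      obtain ⟨b, hb⟩ := hu1.exists_right_inv
      have hb1 : σ (a : Om) * (b : Om) = 1 := congrArg Subtype.val hb
      have h4 : σ⁻¹ (b : Om) ∈ A := mem_of_mem_decomposition (Subgroup.inv_mem _ hσ) b.2
      refine IsUnit.of_mul_eq_one ⟨σ⁻¹ (b : Om), h4⟩ (Subtype.ext ?_)
      change (a : Om) * σ⁻¹ (b : Om) = 1
      have h5 : σ⁻¹ (σ (a : Om)) = (a : Om) := AlgEquiv.symm_apply_apply σ _
      rw [← h5, ← map_mul, hb1, map_one]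
    exact Submodule.smul_mem_smul h3 (star_mem_span hσ hF hd)
  · intro c d hc hd
    rw [star_add]
    exact add_mem hc hd

variable [AddCommGroup M]

/-- **Local-to-global**, with a decomposition stable set `M₀` of translations acting trivially
modulo the maximal ideal. -/
theorem exists_model_of_local (hp : p.Prime) (hA : A.LiesOverPrime p) [Finite M] (h : GAct act)
    (hadd : ∀ σ x y, act σ (x + y) = act σ x + act σ y)
    (F : Set (M → Om)) (hF : F.Finite)
    (hI : ∀ c ∈ F, ∀ σ ∈ A.inertiaSubgroupIn ℚ, star act σ c = c)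
    (hspan : Submodule.span Om F = ⊤)
    (htr : ∀ y, ∀ c ∈ F, (fun x => c (x + y)) ∈ Submodule.span A F)
    (M₀ : Set M) (hM₀D : ∀ σ ∈ A.decompositionSubgroup ℚ, ∀ y ∈ M₀, act σ y ∈ M₀)
    (hM₀ : ∀ y ∈ M₀, ∀ c ∈ F, (fun x => c (x + y) - c x) ∈
      IsLocalRing.maximalIdeal A • Submodule.span A F) :
    ∃ B : Subalgebra (Rp p) (M → Om), IsModel p act B ∧ ∀ y ∈ M₀, MazurMult.Rel B A y 0 := by
  classical
  obtain ⟨n, hn, hnp, hfix⟩ := exists_fixRoots hp hA h F hF hI
  have hn0 : (n : Om) ≠ 0 := by exact_mod_cast hn.ne'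
  have : NeZero (n : Om) := ⟨hn0⟩
  have : NeZero n := ⟨hn.ne'⟩
  obtain ⟨ζ, hζ⟩ := HasEnoughRootsOfUnity.exists_primitiveRoot Om n
  have hstab : ∀ c ∈ F, ∀ σ ∈ A.decompositionSubgroup ℚ, σ ζ = ζ → star act σ c = c := by
    intro c hc σ hσ hσζ
    refine hfix σ ⟨hσ, fun ω hω => ?_⟩ c hc
    obtain ⟨i, -, rfl⟩ := hζ.eq_pow_of_pow_eq_one hω
    rw [map_pow, hσζ]
  -- the `D`-orbit of `F`
  let F' : Set (M → Om) := {d | ∃ σ ∈ A.decompositionSubgroup ℚ, ∃ c ∈ F, star act σ c = d}
  have hF'fin : F'.Finite := by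
    have hO := orbit_finite (A.decompositionSubgroup ℚ) ζ
    choose! δ hδD hδ using fun ω (hω : ω ∈ {ω : Om | ∃ σ ∈ A.decompositionSubgroup ℚ, σ ζ = ω}) => hω
    refine (hO.biUnion (t := fun ω => (fun c => star act (δ ω) c) '' F)
      fun ω _ => hF.image _).subset ?_
    rintro _ ⟨σ, hσ, c, hc, rfl⟩
    have hm : σ ζ ∈ {ω : Om | ∃ σ ∈ A.decompositionSubgroup ℚ, σ ζ = ω} := ⟨σ, hσ, rfl⟩
    rw [Set.mem_iUnion₂]
    refine ⟨σ ζ, hm, c, hc, ?_⟩
    have h3 : (δ (σ ζ))⁻¹ * σ ∈ A.decompositionSubgroup ℚ :=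
      Subgroup.mul_mem _ (Subgroup.inv_mem _ (hδD _ hm)) hσ
    have h4 : ((δ (σ ζ))⁻¹ * σ) ζ = ζ := by
      change (δ (σ ζ))⁻¹ (σ ζ) = ζ
      conv_lhs => arg 2; rw [← hδ _ hm]
      exact AlgEquiv.symm_apply_apply (δ (σ ζ)) ζ
    have h5 := hstab c hc _ h3 h4
    have h6 : star act σ c = star act (δ (σ ζ)) (star act ((δ (σ ζ))⁻¹ * σ) c) := by
      rw [← h.star_mul]; congr 1; group
    change star act (δ (σ ζ)) c = star act σ c
    rw [h6, h5]
  let L : Submodule A (M → Om) := Submodule.span A F'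
  have hLfg : L.FG := ⟨hF'fin.toFinset, by rw [Set.Finite.coe_toFinset]⟩
  have hFL : ∀ c ∈ F, ∀ σ ∈ A.decompositionSubgroup ℚ, star act σ c ∈ L := fun c hc σ hσ =>
    Submodule.subset_span ⟨σ, hσ, c, hc, rfl⟩
  have hFL1 : ∀ c ∈ F, c ∈ L := by
    intro c hc
    have := hFL c hc 1 (Subgroup.one_mem _)
    rwa [h.star_one] at this
  have hLstab : ∀ σ ∈ A.decompositionSubgroup ℚ, ∀ c ∈ L, star act σ c ∈ L := by
    intro σ hσ c hc
    refine star_mem_span hσ ?_ hc
    rintro _ ⟨τ, hτ, d, hd, rfl⟩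
    rw [← h.star_mul]
    exact hFL d hd _ (Subgroup.mul_mem _ hσ hτ)
  have hLtr : ∀ y, ∀ c ∈ L, (fun x => c (x + y)) ∈ L := by
    intro y c hc
    induction hc using Submodule.span_induction with
    | mem c hc =>
      obtain ⟨σ, hσ, d, hd, rfl⟩ := hc
      have h1 : (fun x => star act σ d (x + y)) = star act σ (fun x => d (x + act σ⁻¹ y)) := by
        funext x
        rw [star_apply, star_apply, hadd]
      rw [h1]
      exact star_mem_span hσ (fun c hc => hFL c hc σ hσ) (htr _ d hd)
    | zero => exact zero_mem _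
    | add c d _ _ hc hd => exact add_mem hc hd
    | smul a c _ hc => exact Submodule.smul_mem _ a hc
  -- `D`-invariant elements
  let LD : Set (M → Om) := {d | d ∈ L ∧ ∀ τ ∈ A.decompositionSubgroup ℚ, star act τ d = d}
  have hLD : L ≤ Submodule.span A LD := by
    rw [Submodule.span_le]
    rintro _ ⟨σ, hσ, c, hc, rfl⟩
    refine star_mem_span (F := LD) hσ (fun d hd => ?_) ?_
    · rw [hd.2 σ hσ]
      exact Submodule.subset_span hd
    · refine interp h (S := A) (A.decompositionSubgroup ℚ) ζ c (hstab c hc) ?_ ?_ L (hFL c hc)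
      · intro σ hσ
        have h1 : σ ζ ∈ A := by
          apply pow_eq_one_mem hn
          rw [← map_pow, hζ.pow_eq_one, map_one]
        exact ⟨⟨_, h1⟩, rfl⟩
      · intro σ hσ hne
        have h1 : (ζ - σ ζ)⁻¹ ∈ A := by
          apply inv_sub_mem_of_pow_eq_one hA hn hnp hζ.pow_eq_one _ hne
          rw [← map_pow, hζ.pow_eq_one, map_one]
        exact ⟨⟨_, h1⟩, rfl⟩
  -- the global lattice
  let Λ : Submodule (Rp p) (M → Om) :=
    { carrier := {c | c ∈ L ∧ Equivariant act c}
      add_mem' := by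
        rintro c d ⟨hc, hc'⟩ ⟨hd, hd'⟩
        refine ⟨add_mem hc hd, fun σ x => ?_⟩
        rw [Pi.add_apply, Pi.add_apply, hc', hd', map_add]
      zero_mem' := ⟨zero_mem _, fun σ x => by rw [Pi.zero_apply, Pi.zero_apply, map_zero]⟩
      smul_mem' := by
        rintro r c ⟨hc, hc'⟩
        have hr : algebraMap ℚ Om (r : ℚ) ∈ A := algebraMap_mem_of_mem_Rp hA r.2
        have h1 : r • c = (⟨algebraMap ℚ Om (r : ℚ), hr⟩ : A) • c := Rp_smul_eq r c
        refine ⟨by rw [h1]; exact L.smul_mem _ hc, fun σ x => ?_⟩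
        rw [Rp_smul_eq, Pi.smul_apply, Pi.smul_apply, hc', smul_eq_mul, smul_eq_mul, map_mul,
          AlgEquiv.commutes] }
  have hΛ : ∀ c, c ∈ Λ ↔ c ∈ L ∧ Equivariant act c := fun c => Iff.rfl
  obtain ⟨m, v, hv⟩ := h.exists_basis
  -- bounds for the basis
  have hLspan : ∀ c : M → Om, ∃ N : ℕ, ∀ k, N ≤ k → ∃ d ∈ L, ((p : Om) ^ k) • c = d := by
    intro c
    have hc : c ∈ Submodule.span Om F := by rw [hspan]; trivial
    induction hc using Submodule.span_induction with
    | mem c hc =>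
      refine ⟨0, fun k _ => ⟨_, ?_, rfl⟩⟩
      exact L.smul_mem (⟨(p : Om) ^ k, pow_mem (natCast_mem A p) k⟩ : A) (hFL1 c hc)
    | zero => exact ⟨0, fun k _ => ⟨0, zero_mem _, by simp⟩⟩
    | add c d _ _ hc hd =>
      obtain ⟨N, hN⟩ := hc
      obtain ⟨N', hN'⟩ := hd
      refine ⟨max N N', fun k hk => ?_⟩
      obtain ⟨a, ha, ha'⟩ := hN k (le_of_max_le_left hk)
      obtain ⟨b, hb, hb'⟩ := hN' k (le_of_max_le_right hk)
      exact ⟨a + b, add_mem ha hb, by rw [smul_add, ha', hb']⟩
    | smul a c _ hc =>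
      obtain ⟨N, hN⟩ := hc
      obtain ⟨N', hN'⟩ := exists_pow_mul_mem hp hA a
      refine ⟨N + N', fun k hk => ?_⟩
      obtain ⟨d, hd, hd'⟩ := hN (k - N') (by omega)
      refine ⟨(⟨(p : Om) ^ N' * a, hN' N' le_rfl⟩ : A) • d, L.smul_mem _ hd, ?_⟩
      have h1 : (⟨(p : Om) ^ N' * a, hN' N' le_rfl⟩ : A) • d = ((p : Om) ^ N' * a) • d := rfl
      rw [h1, ← hd', smul_smul, smul_smul]
      congr 1
      have h2 : k = (k - N') + N' := by omega
      conv_lhs => rw [h2, pow_add]
      ring
  -- approximation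
  have happrox : ∀ d ∈ LD, ∃ c ∈ Λ, ∃ e ∈ L, d - c = (p : Om) • e := by
    rintro d ⟨hdL, hd⟩
    choose N hN using fun i => hLspan (v i)
    let K := Finset.univ.sup N
    have hK : ∀ i, ∃ e ∈ L, ((p : Om) ^ K) • v i = e := fun i =>
      hN i K (Finset.le_sup (Finset.mem_univ i))
    choose e heL he using hK
    have hfixed : ∀ i, ∀ σ ∈ A.decompositionSubgroup ℚ, σ (v.repr d i) = v.repr d i :=
      fun i σ hσ => repr_fixed h v hv (hd σ hσ) i
    choose r b hbA hb using fun i => exists_rat_of_fixed hp hA (hfixed i) (K + 1)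
    let c : M → Om := ∑ i, algebraMap ℚ Om (r i) • v i
    have hdc : d - c = (p : Om) • ∑ i, b i • e i := by
      conv_lhs => rw [← v.sum_repr d]
      simp only [c]
      rw [← Finset.sum_sub_distrib, Finset.smul_sum]
      refine Finset.sum_congr rfl fun i _ => ?_
      rw [← sub_smul, hb, ← he, smul_smul, smul_smul]
      congr 1
      ring
    have heL' : ∑ i, b i • e i ∈ L := Submodule.sum_mem _ fun i _ =>
      L.smul_mem (⟨b i, hbA i⟩ : A) (heL i)
    refine ⟨c, ?_, _, heL', hdc⟩
    rw [hΛ]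
    constructor
    · have h1 : c = d - (p : Om) • ∑ i, b i • e i := by rw [← hdc]; abel
      rw [h1]
      exact L.sub_mem hdL (L.smul_mem (⟨(p : Om), natCast_mem A p⟩ : A) heL')
    · rw [h.equivariant_iff]
      intro σ
      simp only [c, star_sum, star_smul, AlgEquiv.commutes]
      refine Finset.sum_congr rfl fun i _ => ?_
      rw [(h.equivariant_iff (v i)).mp (hv i) σ]
  -- Nakayama
  have hLΛ : L ≤ Submodule.span A (Λ : Set (M → Om)) := by
    apply Submodule.le_of_le_smul_of_le_jacobson_bot (I := IsLocalRing.maximalIdeal A) hLfg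
      (IsLocalRing.maximalIdeal_le_jacobson _)
    refine hLD.trans ?_
    rw [Submodule.span_le]
    intro d hd
    obtain ⟨c, hc, e, he, hde⟩ := happrox d hd
    have h1 : d = c + (p : Om) • e := by rw [← hde]; abel
    rw [h1]
    refine Submodule.add_mem_sup (Submodule.subset_span hc) ?_
    obtain ⟨h2, h3⟩ := ValuationSubring.mem_nonunits_iff_exists_mem_maximalIdeal.mp
      (natCast_mem_nonunits hA)
    exact Submodule.smul_mem_smul h3 he
  -- finite generation
  have hΛfg : Λ.FG := by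
    choose N hN using fun (c : M → Om) (i : Fin m) => exists_pow_mul_mem hp hA (v.repr c i)
    let K := hF'fin.toFinset.sup fun c => Finset.univ.sup (N c)
    have hK : ∀ c ∈ F', ∀ i, (p : Om) ^ K * v.repr c i ∈ A := by
      intro c hc i
      apply hN c i K
      refine (Finset.le_sup (Finset.mem_univ i)).trans ?_
      exact Finset.le_sup (f := fun c => Finset.univ.sup (N c))
        (by rwa [Set.Finite.mem_toFinset])
    have hK' : ∀ c ∈ L, ∀ i, (p : Om) ^ K * v.repr c i ∈ A := by
      intro c hc i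
      induction hc using Submodule.span_induction with
      | mem c hc => exact hK c hc i
      | zero => rw [map_zero, Finsupp.zero_apply, mul_zero]; exact A.zero_mem
      | add c d _ _ hc hd =>
        rw [map_add, Finsupp.add_apply, mul_add]; exact A.add_mem _ _ hc hd
      | smul a c _ hc =>
        have h1 : a • c = (a : Om) • c := rfl
        rw [h1, map_smul, Finsupp.smul_apply, smul_eq_mul, mul_left_comm]
        exact A.mul_mem _ _ a.2 hc
    have hp0 : (p : Om) ≠ 0 := by exact_mod_cast hp.ne_zero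
    refine Submodule.FG.of_le (T := Submodule.span (Rp p)
      (Set.range fun i => ((p : Om) ^ K)⁻¹ • v i)) (Submodule.fg_span (Set.finite_range _)) ?_
    rintro c ⟨hcL, hcE⟩
    have hrat : ∀ i, ∃ r : ℚ, algebraMap ℚ Om r = v.repr c i := fun i =>
      fixed_mem_range fun σ => repr_fixed h v hv ((h.equivariant_iff c).mp hcE σ) i
    choose r hr using hrat
    have hrR : ∀ i, (p : ℚ) ^ K * r i ∈ Rp p := by
      intro i
      apply mem_Rp_of_mem hp hA
      rw [map_mul, map_pow, map_natCast, hr]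
      exact hK' c hcL i
    have hcsum : c = ∑ i, (⟨(p : ℚ) ^ K * r i, hrR i⟩ : Rp p) • (((p : Om) ^ K)⁻¹ • v i) := by
      conv_lhs => rw [← v.sum_repr c]
      refine Finset.sum_congr rfl fun i _ => ?_
      have h1 : (⟨(p : ℚ) ^ K * r i, hrR i⟩ : Rp p) • (((p : Om) ^ K)⁻¹ • v i) =
          (algebraMap ℚ Om ((p : ℚ) ^ K * r i)) • (((p : Om) ^ K)⁻¹ • v i) := Rp_smul_eq _ _
      rw [h1, smul_smul, map_mul, map_pow, map_natCast, ← hr]
      congr 1
      field_simp
    rw [hcsum]
    exact Submodule.sum_mem _ fun i _ => Submodule.smul_mem _ _ (Submodule.subset_span ⟨i, rfl⟩)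
  -- separation
  have hΛtop : Submodule.span Om (Λ : Set (M → Om)) = ⊤ := by
    rw [eq_top_iff, ← hspan, Submodule.span_le]
    intro c hc
    have h1 := hLΛ (hFL1 c hc)
    exact Submodule.span_le_restrictScalars A Om _ h1
  have hLM₀ : ∀ y ∈ M₀, ∀ c ∈ L, (fun x => c (x + y) - c x) ∈ IsLocalRing.maximalIdeal A • L := by
    intro y hy c hc
    induction hc using Submodule.span_induction with
    | mem c hc =>
      obtain ⟨σ, hσ, d, hd, rfl⟩ := hc
      have h1 : (fun x => star act σ d (x + y) - star act σ d x) =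
          star act σ (fun x => d (x + act σ⁻¹ y) - d x) := by
        funext x
        rw [star_apply, star_apply, star_apply, hadd, map_sub]
      rw [h1]
      exact star_mem_smul_span hσ (fun c hc => hFL c hc σ hσ)
        (hM₀ _ (hM₀D _ (Subgroup.inv_mem _ hσ) y hy) d hd)
    | zero =>
      have h1 : (fun x => (0 : M → Om) (x + y) - (0 : M → Om) x) = 0 := by
        funext x; exact sub_self _
      rw [h1]
      exact zero_mem _
    | add c d _ _ hc hd =>
      have h1 : (fun x => (c + d) (x + y) - (c + d) x) =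
          (fun x => c (x + y) - c x) + (fun x => d (x + y) - d x) := by
        funext x
        exact add_sub_add_comm _ _ _ _
      rw [h1]
      exact add_mem hc hd
    | smul a c _ hc =>
      have h1 : (fun x => (a • c) (x + y) - (a • c) x) = a • (fun x => c (x + y) - c x) := by
        funext x
        exact (smul_sub a _ _).symm
      rw [h1]
      exact Submodule.smul_mem _ a hc
  refine exists_model_of_lattice Λ hp hadd hΛfg (fun c hc => hc.2) ?_ hA ?_ M₀ ?_
  · intro x y hxy
    have h1 : ∀ c : M → Om, c x = c y := by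
      intro c
      have hc : c ∈ Submodule.span Om (Λ : Set (M → Om)) := by rw [hΛtop]; trivial
      induction hc using Submodule.span_induction with
      | mem c hc => exact hxy c hc
      | zero => rfl
      | add c d _ _ hc hd => rw [Pi.add_apply, Pi.add_apply, hc, hd]
      | smul a c _ hc => rw [Pi.smul_apply, Pi.smul_apply, hc]
    by_contra hne
    have := h1 (Pi.single x 1)
    rw [Pi.single_eq_same, Pi.single_eq_of_ne (Ne.symm hne)] at this
    exact one_ne_zero this
  · intro y c hc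
    exact hLΛ (hLtr y c hc.1)
  · intro y hy c hc
    exact smul_mono_right (IsLocalRing.maximalIdeal A) hLΛ (hLM₀ y hy c hc.1)

/-- **Local-to-global**, algebra version, with residual information. -/
theorem exists_model_of_local_algebra (hp : p.Prime) (hA : A.LiesOverPrime p) [Finite M]
    (h : GAct act) (hadd : ∀ σ x y, act σ (x + y) = act σ x + act σ y)
    (F : Set (M → Om)) (hF : F.Finite)
    (hI : ∀ c ∈ F, ∀ σ ∈ A.inertiaSubgroupIn ℚ, ∀ x, c (act σ x) = σ (c x))
    (hone : 1 ∈ Submodule.span A F) (hmul : ∀ c ∈ F, ∀ d ∈ F, c * d ∈ Submodule.span A F)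
    (hsep : ∀ x y, (∀ c ∈ F, c x = c y) → x = y)
    (htr : ∀ y, ∀ c ∈ F, (fun x => c (x + y)) ∈ Submodule.span A F)
    (M₀ : Set M) (hM₀D : ∀ σ ∈ A.decompositionSubgroup ℚ, ∀ y ∈ M₀, act σ y ∈ M₀)
    (hM₀ : ∀ y ∈ M₀, ∀ c ∈ F, (fun x => c (x + y) - c x) ∈
      IsLocalRing.maximalIdeal A • Submodule.span A F) :
    ∃ B : Subalgebra (Rp p) (M → Om), IsModel p act B ∧ ∀ y ∈ M₀, MazurMult.Rel B A y 0 := by
  refine exists_model_of_local hp hA h hadd F hF
    (fun c hc σ hσ => (h.star_eq_iff σ c).mpr (hI c hc σ hσ)) ?_ htr M₀ hM₀D hM₀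
  have hle : ∀ c ∈ Submodule.span A F, c ∈ Submodule.span Om F := fun c hc =>
    Submodule.span_le_restrictScalars A Om _ hc
  let S : Subalgebra Om (M → Om) := (Submodule.span Om F).toSubalgebra (hle _ hone) (by
    intro c d hc hd
    induction hc using Submodule.span_induction with
    | mem c hc =>
      induction hd using Submodule.span_induction with
      | mem d hd => exact hle _ (hmul c hc d hd)
      | zero => rw [mul_zero]; exact zero_mem _
      | add d e _ _ hd he => rw [mul_add]; exact add_mem hd he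
      | smul a d _ hd => rw [mul_smul_comm]; exact Submodule.smul_mem _ _ hd
    | zero => rw [zero_mul]; exact zero_mem _
    | add c e _ _ hc he => rw [add_mul]; exact add_mem hc he
    | smul a c _ hc => rw [smul_mul_assoc]; exact Submodule.smul_mem _ _ hc)
  have hS : S = ⊤ := subalgebra_eq_top_of_sep S fun x y hxy =>
    hsep x y fun c hc => hxy c (Submodule.subset_span hc)
  have h1 : ∀ c : M → Om, c ∈ S := fun c => by rw [hS]; trivial
  rw [eq_top_iff]
  exact fun c _ => h1 c

end Fermat.Agent.HopfPair
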