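import Fermat.Agent.HopfPair.Local
import Fermat.Agent.HopfRes.FromSetup2
import Fermat.Agent.HopfOrder.Concrete
import Fermat.Agent.S37aux.Final
import Fermat.Agent.S37aux.Bare
import Fermat.Agent.GoodRed.GenusAll
import Fermat.Agent.Mazur.EisJ

/-!
# Finite flat models of `J₀(N)[q^n]` at a prime `q` of good reduction
-/

set_option autoImplicit false
set_option linter.unusedSectionVars false

open AlgebraicCurve ModularCurve WithZero Module
open scoped TensorProduct
open Fermat.Agent.RR Fermat.Agent.FF Fermat.Agent.Deuring Fermat.Agent.HopfOrder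
open Fermat.Agent.HopfFrame

namespace Fermat.Agent.HopfPair

open Fermat.Agent.FlatGS Fermat.Agent.LatticeFlat

attribute [local instance] nonempty_place finiteResidue

section Abstract

variable {p : ℕ} {F : Type*} {k : Type} {F' : Type*} [Field F] [Algebra Om F] [Field k] [Field F']
  [Algebra k F'] [IsFF Om F] [IsFF k F'] [IsAlgClosed k]
variable {G : GaussData Om F k F'} {P0 : Place Om F}
variable [Algebra (Rp p) k] [Algebra (Rp p) F] [IsScalarTower (Rp p) Om F] [Algebra (Rp p) G.A]
  [IsScalarTower (Rp p) G.A Om] [Algebra (Rp p) F'] [IsScalarTower (Rp p) k F']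

/-- **Models of the finite Galois stable subgroups of the Jacobian of a curve with a good
integral model**, in which the classes with trivial reduction reduce to zero. -/
theorem exists_model_of_setup (S : Setup G P0 (Rp p)) (hp : p.Prime) (hA : G.A.LiesOverPrime p)
    (g : GQ → SemilinearAut Om F) (hg0 : ∀ σ, g σ • P0 = P0)
    (hgb : ∀ σ a, SemilinearAut.baseAut (g σ) a = σ a) (hgB : ∀ σ, ∀ b : S.B, g σ • (b : F) = b)
    (hstab : ∀ σ ∈ G.A.decompositionSubgroup ℚ, ∀ z, RedTriv S.Rd z → RedTriv S.Rd (g σ • z))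
    {M : Type} [AddCommGroup M] [Finite M] (ι : M →+ Pic0 Om F) (hι : Function.Injective ι)
    {act : GQ → M → M} (h : GAct act) (hact : ∀ σ x, ι (act σ x) = g σ • ι x) :
    ∃ B : Subalgebra (Rp p) (M → Om), IsModel p act B ∧
      ∀ y, RedTriv S.Rd (ι y) → MazurMult.Rel B G.A y 0 := by
  obtain ⟨E, hE, hI, -, hone, hmul, hsep, htr, hred⟩ :=
    exists_functions_of_setup S hp hA g hg0 hgb hgB ι hι hact
  obtain ⟨B, hB, hB'⟩ := exists_model_of_local_algebra hp hA h (fun σ x y => by
      apply hι
      rw [hact, map_add, smul_add, map_add, hact, hact]) E hE hI hone hmul hsep htr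
    {y | RedTriv S.Rd (ι y)} (fun σ hσ y hy => by
      change RedTriv S.Rd (ι (act σ y))
      rw [hact]
      exact hstab σ hσ _ hy)
    (fun y hy c hc => hred y hy c hc)
  exact ⟨B, hB, hB'⟩

end Abstract

section Level

open Fermat.Agent.GalRep Fermat.Agent.Mazur Fermat.Agent.MazurCyc Fermat.Agent.S37aux
open Fermat.Agent.GaussVal

variable (N : ℕ) [NeZero N]

theorem gact_torsAct (m : ℤ) : GAct (torsAct (J := JZero N) m) where
  one x := Subtype.ext (one_smul FlatGS.GQ (x : JZero N))
  mul σ τ x := Subtype.ext (mul_smul σ τ (x : JZero N))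
  exists_field x := by
    obtain ⟨L, hL, h⟩ := Cofaith.exists_fixing_JZero N (x : JZero N)
    exact ⟨L, hL, fun σ hσ => Subtype.ext (h σ hσ)⟩

theorem finite_torsionBy {m : ℕ} (hm : m ≠ 0) :
    Finite (Submodule.torsionBy ℤ (JZero N) (m : ℤ)) := by
  have := Cofaith.finite_torsion N hm
  refine Finite.of_injective (β := {x : JZero N // m • x = 0}) (fun x => ⟨x, ?_⟩)
    (fun x y hxy => Subtype.ext (congrArg (fun z : {x : JZero N // m • x = 0} => (z : JZero N)) hxy))
  have h1 := (Submodule.mem_torsionBy_iff (m : ℤ) (x : JZero N)).mp x.2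
  rwa [natCast_zsmul] at h1

variable {q : ℕ} (hq : q.Prime) {A : ValuationSubring (AlgebraicClosure ℚ)} (hA : A.LiesOverPrime q)

/-- the model of `J₀(N)[m]` -/
theorem hasModel_of (h : DegC A N) [IsFF (RF A) (FC A N)] (R : RedMap (gauss hq hA N h))
    (hstab : ∀ σ ∈ A.decompositionSubgroup ℚ, ∀ z : JZero N, RedTriv R z →
      RedTriv R (arithmeticGalois (modularFunctionFieldFull N) σ • z))
    (J₀ : AddSubgroup (JZero N)) (hJ₀ : ∀ z ∈ J₀, RedTriv R z) {m : ℕ} (hm : m ≠ 0) :
    HasModel q (JZero N) (m : ℤ) A J₀ := by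
  obtain ⟨i1, i2, i3, i4, t1, t2, t3, S, hS, hB⟩ := exists_setup_modular hq hA h R
  have := finite_torsionBy N hm
  obtain ⟨B, hB1, hB2⟩ := exists_model_of_setup S hq hA
    (fun σ => arithmeticGalois (modularFunctionFieldFull N) σ) (fun σ => MW.smul_cuspInf N σ)
    (fun σ a => rfl) (fun σ b => hB b σ)
    (fun σ hσ z hz => by rw [hS] at hz ⊢; exact hstab σ hσ z hz)
    (ι := (Submodule.torsionBy ℤ (JZero N) (m : ℤ)).subtype.toAddMonoidHom)
    Subtype.val_injective (gact_torsAct N (m : ℤ)) (fun σ x => rfl)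
  refine ⟨B, hB1, fun x hx => hB2 x ?_⟩
  rw [hS]
  exact hJ₀ _ hx

theorem inclBar_refl (f : modularFunctionFieldBar N) : inclBar (dvd_refl N) f = f :=
  Subtype.ext (coe_inclBar (dvd_refl N) f)

/-- the reduction map on divisors of degree zero -/
theorem tot_eq (h h' : DegC A N) [IsFF (RF A) (FC A N)]
    (R : RedMap (gauss hq hA N h')) {D : Divisor (AlgebraicClosure ℚ) (modularFunctionFieldBar N)}
    (hD0 : Divisor.degree D = 0) : (setup hq hA (dvd_refl N) h h' R).tot D = R.r D := by
  refine eq_of_bounded (setup hq hA (dvd_refl N) h h' R).tot R.r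
    (max (finrankAlong (AlgebraicClosure ℚ) (setup hq hA (dvd_refl N) h h' R).φ : ℤ) 1)
    ?_ ?_ ?_ ?_ ?_ hD0
  · exact fun v => (setup hq hA (dvd_refl N) h h' R).tot_nonneg (single_nonneg v)
  · exact fun v => R.nonneg _ (single_nonneg v)
  · intro v
    rw [(setup hq hA (dvd_refl N) h h' R).degree_tot, degree_single_one, mul_one]
    exact le_max_left _ _
  · intro v
    rw [R.degree_r, degree_single_one]
    exact le_max_right _ _
  · intro f hf
    obtain ⟨c, hc, hO, h0⟩ := (setup hq hA (dvd_refl N) h h' R).exists_scale hf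
    rw [← div_smul hc, (setup hq hA (dvd_refl N) h h' R).tot_div hO h0]
    have e : (setup hq hA (dvd_refl N) h h' R).φ (c • f) = c • f := inclBar_refl N _
    have hO' : c • f ∈ (gauss hq hA N h').O := by
      have := hO
      rw [e] at this
      exact this
    have e2 : (setup hq hA (dvd_refl N) h h' R).G.ρ ⟨_, hO⟩ = (gauss hq hA N h').ρ ⟨c • f, hO'⟩ := by
      congr 1
    rw [e2, R.r_div _ hO' (by rw [← e2]; exact h0)]

/-- the kernel of the bare reduction map at level `N` -/
theorem redTriv_of_red_eq_zero (h h' : DegC A N) [IsFF (RF A) (FC A N)]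
    (R : RedMap (gauss hq hA N h')) {z : JZero N}
    (hz : (setup hq hA (dvd_refl N) h h' R).red z = 0) : RedTriv R z := by
  obtain ⟨⟨D, hD⟩, rfl⟩ := Pic0.mk_surjective z
  rw [Deuring.Setup.red_mk] at hz
  obtain ⟨f, -, hf0, hf⟩ := (QuotientAddGroup.eq_zero_iff _).mp hz
  have hD0 : Divisor.degree D = 0 := hD
  rw [redTriv_mk_iff]
  change (R.r D).IsPrincipal
  rw [← tot_eq N hq hA h h' R hD0]
  change (setup hq hA (dvd_refl N) h h' R).tot D = _ at hf
  rw [hf]
  exact isPrincipal_div hf0

/-- **The reduction map with finite flat models**, from the stability of the classes with trivial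
reduction under the decomposition group. -/
theorem modelRed_of (hN : ¬ q ∣ N)
    (hstab : ∀ (h : DegC A N) [IsFF (RF A) (FC A N)] (R : RedMap (gauss hq hA N h)),
      ∀ σ ∈ A.decompositionSubgroup ℚ, ∀ z : JZero N, RedTriv R z →
        RedTriv R (arithmeticGalois (modularFunctionFieldFull N) σ • z)) :
    MazurEisJ.ModelRed N q hq A := by
  have h : DegC A N := degC A N (cast_ne_zero hq hA hN)
  have := h.isFF
  have := Fact.mk hq
  have := charP_RF hq hA
  have : PerfectRing (RF A) q := PerfectField.toPerfectRing q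
  obtain ⟨R, _⟩ := (gauss hq hA N h).exists_redMap_of_le (GoodRed.genus_le_all hq hA N hN)
  refine ⟨(setup hq hA (dvd_refl N) h h R).Tgt, inferInstance, (setup hq hA (dvd_refl N) h h R).red,
    Frob hq hA (dvd_refl N) h h R, fun σ hσ x => setup_inertia hq hA (dvd_refl N) h h R hσ x,
    fun σ hσ x => setup_frobenius hq hA (dvd_refl N) h h R hσ x,
    fun x => setup_hecke hq hA (dvd_refl N) h h R hN x, fun n => ?_⟩
  have h1 := hasModel_of N hq hA h R (hstab h R) (setup hq hA (dvd_refl N) h h R).red.ker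
    (fun z hz => redTriv_of_red_eq_zero N hq hA h h R hz) (m := q ^ n) (pow_ne_zero _ hq.ne_zero)
  rwa [Nat.cast_pow] at h1

end Level

end Fermat.Agent.HopfPair
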