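import Fermat.Agent.HopfPair.Model

/-!
# The decomposition group preserves the classes with trivial reduction
-/

set_option autoImplicit false
set_option linter.unusedSectionVars false

open AlgebraicCurve ModularCurve WithZero Module
open Fermat.Agent.RR Fermat.Agent.FF Fermat.Agent.Deuring Fermat.Agent.HopfOrder
open Fermat.Agent.HopfFrame

noncomputable section

namespace Fermat.Agent.HopfPair

open Fermat.Agent.FlatGS

attribute [local instance] nonempty_place finiteResidue

section Aut

open Fermat.Agent.GaussVal Fermat.Agent.S37aux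

variable (k : Type*) [Field k] (N : ℕ) (τ : k ≃+* k)

/-- the coefficientwise action of an automorphism of the constants -/
def fcRingAut : modularFunctionFieldFullC k N ≃+* modularFunctionFieldFullC k N where
  toFun x := ⟨coeffMap (τ : k →+* k) x, coeffMap_mem_fullC k N _ x.2⟩
  invFun x := ⟨coeffMap (τ.symm : k →+* k) x, coeffMap_mem_fullC k N _ x.2⟩
  left_inv x := Subtype.ext <| by
    change coeffMap _ (coeffMap _ (x : LaurentSeries k)) = _
    rw [coeffMap_coeffMap, coeffMap_congr (g := RingHom.id k), coeffMap_id]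
    ext a
    exact τ.symm_apply_apply a
  right_inv x := Subtype.ext <| by
    change coeffMap _ (coeffMap _ (x : LaurentSeries k)) = _
    rw [coeffMap_coeffMap, coeffMap_congr (g := RingHom.id k), coeffMap_id]
    ext a
    exact τ.apply_symm_apply a
  map_mul' x y := Subtype.ext (map_mul (coeffMap (τ : k →+* k)) _ _)
  map_add' x y := Subtype.ext (map_add (coeffMap (τ : k →+* k)) _ _)

/-- the coefficientwise action of an automorphism of the constants, as a semilinear
automorphism -/
def fcAut : AlgebraicCurve.SemilinearAut k (modularFunctionFieldFullC k N) :=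
  ⟨(fcRingAut k N τ, τ), fun a => Subtype.ext (by
    change coeffMap (τ : k →+* k) (algebraMap k (LaurentSeries k) a) =
      algebraMap k (LaurentSeries k) (τ a)
    rw [algebraMap_laurentSeries_eq_single, algebraMap_laurentSeries_eq_single, coeffMap_single]
    rfl)⟩

theorem coe_fcAut_smul (x : modularFunctionFieldFullC k N) :
    ((fcAut k N τ • x : modularFunctionFieldFullC k N) : LaurentSeries k) =
      coeffMap (τ : k →+* k) (x : LaurentSeries k) := rfl

end Aut

section Level

open Fermat.Agent.GalRep Fermat.Agent.Mazur Fermat.Agent.MazurCyc Fermat.Agent.S37aux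
open Fermat.Agent.GaussVal

variable (N : ℕ) [NeZero N]
variable {q : ℕ} (hq : q.Prime) {A : ValuationSubring (AlgebraicClosure ℚ)} (hA : A.LiesOverPrime q)

/-- the automorphism of the residue field attached to an element of the decomposition group -/
def resAut (σ : A.decompositionSubgroup ℚ) : RF A ≃+* RF A :=
  MulSemiringAction.toRingEquiv (A.decompositionSubgroup ℚ) (IsLocalRing.ResidueField A) σ

theorem setup_decomposition_fun (h h' : DegC A N) [IsFF (RF A) (FC A N)]
    (R : RedMap (gauss hq hA N h')) (σ : A.decompositionSubgroup ℚ)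
    (f : modularFunctionFieldBar N)
    (hf : (setup hq hA (dvd_refl N) h h' R).φ f ∈ (setup hq hA (dvd_refl N) h h' R).G.O) :
    ∃ hf' : (setup hq hA (dvd_refl N) h h' R).φ
      (arithmeticGalois (modularFunctionFieldFull N) (σ : FlatGS.GQ) • f) ∈
      (setup hq hA (dvd_refl N) h h' R).G.O,
      (setup hq hA (dvd_refl N) h h' R).G.ρ ⟨_, hf'⟩ =
        fcAut (RF A) N (resAut σ) • (setup hq hA (dvd_refl N) h h' R).G.ρ ⟨_, hf⟩ := by
  have hf1 := (setup_mem hq hA (dvd_refl N) h h' R).mp hf
  obtain ⟨h1, h2⟩ := gaussRed_decomposition σ ⟨_, hf1⟩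
  have h3 : ((arithmeticGalois (modularFunctionFieldFull N) (σ : FlatGS.GQ) • f :
      modularFunctionFieldBar N) : LaurentSeries (AlgebraicClosure ℚ)) ∈ gaussSubring A := by
    rw [coe_galois]; exact h1
  refine ⟨(setup_mem hq hA (dvd_refl N) h h' R).mpr h3, ?_⟩
  apply Subtype.ext
  rw [setup_ρ hq hA (dvd_refl N) h h' R _ h3]
  have h4 : gaussRed A ⟨_, h3⟩ = gaussRed A ⟨_, h1⟩ :=
    congrArg (gaussRed A) (Subtype.ext (coe_galois (σ : FlatGS.GQ) f))
  have h5 : ((fcAut (RF A) N (resAut σ) • (setup hq hA (dvd_refl N) h h' R).G.ρ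
      ⟨(setup hq hA (dvd_refl N) h h' R).φ f, hf⟩ : FC A N) : LaurentSeries (RF A)) =
      coeffMap ((resAut σ : RF A ≃+* RF A) : RF A →+* RF A)
        (((setup hq hA (dvd_refl N) h h' R).G.ρ
        ⟨(setup hq hA (dvd_refl N) h h' R).φ f, hf⟩ : FC A N) : LaurentSeries (RF A)) :=
    coe_fcAut_smul (RF A) N (resAut σ) _
  rw [h5, setup_ρ hq hA (dvd_refl N) h h' R hf hf1, h4]
  exact h2

/-- **Stability** of the classes with trivial reduction under the decomposition group. -/
theorem redTriv_smul (h : DegC A N) [IsFF (RF A) (FC A N)] (R : RedMap (gauss hq hA N h))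
    {σ : FlatGS.GQ} (hσ : σ ∈ A.decompositionSubgroup ℚ) {z : JZero N} (hz : RedTriv R z) :
    RedTriv R (arithmeticGalois (modularFunctionFieldFull N) σ • z) := by
  obtain ⟨⟨D, hD⟩, rfl⟩ := Pic0.mk_surjective z
  rw [redTriv_mk_iff] at hz
  have h1 := (setup hq hA (dvd_refl N) h h R).tot_smul
    (arithmeticGalois (modularFunctionFieldFull N) σ) (fcAut (RF A) N (resAut ⟨σ, hσ⟩))
    (setup_decomposition_fun N hq hA h h R ⟨σ, hσ⟩) (D := D) hD
  rw [tot_eq N hq hA h h R hD, tot_eq N hq hA h h R (by
    rw [SemilinearAut.degree_smul]; exact hD)] at h1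
  rw [SemilinearAut.pic0_smul_mk, redTriv_mk_iff, SemilinearAut.coe_degZeroSMulHom]
  change (R.r (arithmeticGalois (modularFunctionFieldFull N) σ • D)).IsPrincipal
  rw [h1]
  obtain ⟨f, hf, hf'⟩ := isPrincipal_iff.mp hz
  change R.r D = _ at hf'
  rw [hf', ← div_smul_aut]
  exact isPrincipal_div (by
    rw [SemilinearAut.smul_def]
    exact (map_ne_zero_iff _ (SemilinearAut.toRingAut _).injective).mpr hf)

include hA in
/-- **The reduction map with finite flat models** -/
theorem modelRed (hN : ¬ q ∣ N) : MazurEisJ.ModelRed N q hq A :=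
  modelRed_of N hq hA hN fun h _ R _ hσ _ hz => redTriv_smul N hq hA h R hσ hz

end Level

end Fermat.Agent.HopfPair
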